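import Mathlib
import Fermat.Agent.LT.T7.H193.NatMatchSpec

/-!
# Row LT, tower T7, leaf T7.L2.1.RT2 `H193.FibCardC` (helper952, spare)

OFF-MAIN.  `fibCardC952 (K K') : H193.FibCardC K K'`, VERBATIM against helper193's frozen
`T7/H193/NatMatchSpec.lean`.  No hole, nothing assumed.

The fibre of `w ↦ w.comap` over `v` is one orbit of the Galois group (`mem_orbit_iff`); `v` is
complex, so every place over it is unramified and its stabiliser is trivial
(`card_stabilizer`); orbit-stabiliser.
-/

set_option autoImplicit false
set_option linter.unusedSectionVars false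
set_option linter.unusedVariables false

open NumberField NumberField.InfinitePlace

noncomputable section

namespace Fermat.Agent.LT.T7.H952

/-- **`H193.FibCardC`** (T7.L2.1.RT2), VERBATIM. -/
theorem fibCardC952 (K K' : Type) [Field K] [NumberField K] [Field K'] [NumberField K']
    [Algebra K K'] : Fermat.Agent.LT.T7.H193.FibCardC K K' := by
  intro ℓ hcyc htc v
  classical
  haveI : IsGalois K K' := hcyc.galois
  haveI : FiniteDimensional K K' :=
    Module.finite_of_finrank_pos (by rw [hcyc.degree]; exact hcyc.prime.pos)
  obtain ⟨w, hw⟩ := comap_surjective (k := K) (K := K') v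
  have hw' : w.comap (algebraMap K K') = v := hw
  -- the fibre is the orbit
  have hfib : {w' : InfinitePlace K' // w'.comap (algebraMap K K') = v}
      = ↥(MulAction.orbit Gal(K'/K) w) := by
    congr 1
    ext w'
    rw [mem_orbit_iff (k := K), hw']
    exact eq_comm
  rw [hfib]
  -- the stabiliser is trivial
  have hunr : IsUnramified K w := by
    rw [isUnramified_iff]
    right
    rw [hw']
    exact htc v
  have hstab : Nat.card (MulAction.stabilizer Gal(K'/K) w) = 1 :=
    (isUnramified_iff_card_stabilizer_eq_one (k := K) (w := w)).mp hunr
  have horb := MulAction.card_orbit_mul_card_stabilizer_eq_card_group Gal(K'/K) w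
  rw [← Nat.card_eq_fintype_card, ← Nat.card_eq_fintype_card, ← Nat.card_eq_fintype_card,
    hstab, mul_one, IsGalois.card_aut_eq_finrank K K', hcyc.degree] at horb
  exact horb

end Fermat.Agent.LT.T7.H952

end
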