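import Mathlib
import Fermat.Agent.LT.T7.B981.PairBaseSpec

/-!
# Row LT, tower T7, leaf T7.L2.1.H2a.A.0.U `UpGoodC981` (helper952, registry row 2911)

OFF-MAIN.  VERBATIM against `T7/B981/PairBaseSpec.lean` (helper981, BaseA third cut).

    upGoodC952 (K K') : B981.UpGoodC981 K K'                       (UNCONDITIONAL)

Plug of the closed `T3.M.ekOfPairM_c` for `K'` (totally complex, because `K` is): the sum
upstairs of the data is a member of `pairSpanMS` (coefficients `1`), the coordinates telescope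
(`tel_up`), the frame is `frame_up`.  The scalar: `c₁ C = 1` if `C.b w = 0` for some `w ∈ P'`
(then the eigenfunctions vanish: `H732.eq_zero_of_b_eq_zero732`), and `c (root1) (root2) C.m`
otherwise; an eigenfunction of the base level is `IsMeanLevel` for the level `𝔫 𝒪_{K'} ≤ 𝔑₀`;
`c₁ ≠ 0` on the class of `Φ`: `ft_ne` and `good`.
-/

set_option autoImplicit false
set_option linter.style.haveILetI false

open AutomorphicForm IsDedekindDomain NumberField MeasureTheory
open scoped ComplexConjugate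

noncomputable section

namespace Fermat.Agent.LT.T7.H952

open Fermat.Agent.LT.H556 Fermat.Agent.LT.H556.A0 Fermat.Agent.LT.T7
open Fermat.Agent.LT.T7.H305 Fermat.Agent.LT.T7.H893 Fermat.Agent.LT.T7.B981

attribute [local instance] Fermat.Agent.LT.T5.instMeasurableSpaceG

section OneField

variable {K : Type} [Field K] [NumberField K]

/-- The level groups are monotone in the level. -/
theorem inLevelGroup_mono952 {𝔑 𝔑₀ : Ideal (𝓞 K)} (hle : 𝔑 ≤ 𝔑₀) {u : G K}
    (hu : InLevelGroup 𝔑 u) : InLevelGroup 𝔑₀ u := by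
  have hmono : ∀ v : HeightOneSpectrum (𝓞 K), idealClosure 𝔑 v ⊆ idealClosure 𝔑₀ v :=
    fun v => closure_mono (Set.image_mono hle)
  exact ⟨hu.1, fun v i j => ⟨hmono v (hu.2 v i j).1, hmono v (hu.2 v i j).2⟩⟩

/-- An eigenfunction of the level `𝔑₀` is a joint eigenfunction of the sphere means of every
smaller level. -/
theorem isMeanLevel_of_isEigFn952 {𝔑 𝔑₀ : Ideal (𝓞 K)} (hle : 𝔑 ≤ 𝔑₀) {r : G K} {l : ℕ}
    {o : ℕ → HeightOneSpectrum (𝓞 K)} {χ : G K → ℂ} {C : EigData K}
    (h : IsEigFn 𝔑₀ r l o χ C) : T3.M.IsMeanLevel K 𝔑 C.m χ where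
  cont := h.inv.cusp.cont
  level_inv := fun u hu g => h.inv.cusp.aut.level_inv u (inLevelGroup_mono952 hle hu) g
  arch_scalar := h.inv.arch_scalar
  arch_compact := fun w k hk g =>
    (h.inv.cusp.aut.arch_compact w k hk g).trans (one_mul (χ g))
  mean := h.mean

end OneField

section TwoFields

variable (K K' : Type) [Field K] [NumberField K] [Field K'] [NumberField K'] [Algebra K K']

omit [NumberField K] [NumberField K'] in
/-- An extension of a totally complex field is totally complex. -/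
theorem totCplx_up952 (hK : TotCplx K) : ∀ w : InfinitePlace K', w.IsComplex := by
  intro w
  by_contra hw
  have hr : w.IsReal := InfinitePlace.not_isComplex_iff_isReal.1 hw
  have hr' := hr.comap (algebraMap K K')
  exact (InfinitePlace.not_isComplex_iff_isReal.2 hr') (hK _)

/-- **LEAF A.0.U = UP.** -/
theorem upGoodC952 : UpGoodC981 K K' := by
  intro ℓ _hcyc hK Φ B hB 𝔫 h𝔫 μc hμc T₀ n m D hD
  have hcx := totCplx_up952 K K' hK
  obtain ⟨κ₀, hκ₀, hall⟩ := T3.M.ekOfPairM_c K' hcx B.R'.μ hB.frame'.frame.haar μc hμc D.κc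
    hD.κc_ne (upI (K' := K') 𝔫) D.P' D.e' D.a₀' D.α' hD.frame_up
  -- the sums are a member of `pairSpanMS`
  have hmemS : (D.crdUp, D.up (upI (K' := K') 𝔫))
      ∈ T3.M.pairSpanMS K' μc D.κc (upI (K' := K') 𝔫) D.P' := by
    have h : ((D.crdUp, D.up (upI (K' := K') 𝔫)) :
        (T3.M.CoordM K' D.P' → ℂ) × (G K' → ℂ))
        = ∑ i : Fin D.N, ((T3.M.pureCoordM K' D.P' (D.A' i) (D.β' i),
            T3.M.pureFnM K' (upI (K' := K') 𝔫) D.P' (D.φ₀ i) (D.Φ i)) :
            (T3.M.CoordM K' D.P' → ℂ) × (G K' → ℂ)) := by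
      refine Prod.ext ?_ ?_
      · rw [Prod.fst_sum]
        funext p
        rw [Finset.sum_apply]
        rfl
      · rw [Prod.snd_sum]
        funext g
        rw [Finset.sum_apply]
        rfl
    rw [h]
    refine Submodule.sum_mem _ fun i _ => Submodule.subset_span ?_
    exact ⟨D.A' i, D.β' i, D.φ₀ i, D.Φ i, hD.symA' i, hD.symβ' i, hD.sat_up i, hD.test_up i,
      hD.smooth_up i, hD.abel_up i, hD.acts_up i, rfl⟩
  obtain ⟨h1, h2, h3, h4, c, hc, hop⟩ := hall D.crdUp (D.up (upI (K' := K') 𝔫))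
    (T3.M.pairSpanMS_le μc D.κc _ _ hmemS) hD.tel_up
  refine ⟨h1, h2, h3, h4, ?_⟩
  classical
  refine ⟨fun C => if ∃ w ∈ D.P', C.b w = 0 then 1 else
    c (fun w => T3.H732.root1_732 (C.a w) (C.b w))
      (fun w => T3.H732.root2_732 (C.a w) (C.b w)) C.m, ?_, ?_⟩
  · -- the operator
    intro χ C hχ y
    have hheck : ∀ w ∈ D.P', IsHeckeEigenAt χ w (C.a w) (C.b w) := fun w hw =>
      hχ.hecke w (fun hdvd => hD.out w hw ((hB.mem_S' w).2 hdvd))
    by_cases hb : ∃ w ∈ D.P', C.b w = 0
    · simp only [if_pos hb, one_mul]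
      obtain ⟨w, hw, hbw⟩ := hb
      have hecke' := hheck w hw
      rw [hbw] at hecke'
      have hzero : ∀ g : G K', χ g = 0 :=
        T3.H732.eq_zero_of_b_eq_zero732 K' (T3.inScalarUnif_u K') hecke'
      rw [hzero y]
      show ∫ x, D.up (upI (K' := K') 𝔫) x * χ (y * x) ∂B.R'.μ = 0
      simp only [hzero, mul_zero, integral_zero]
    · simp only [if_neg hb]
      simp only [not_exists, not_and] at hb
      exact hop χ C.m (isMeanLevel_of_isEigFn952 h𝔫.level_g hχ) C.a C.b _ _ hheck
        (fun w _ => (T3.H732.roots_spec732 (C.a w) (C.b w)).1)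
        (fun w _ => (T3.H732.roots_spec732 (C.a w) (C.b w)).2) hb y
  · -- non-vanishing on the class of `Φ`
    intro C hC
    by_cases hb : ∃ w ∈ D.P', C.b w = 0
    · simp only [if_pos hb]
      exact one_ne_zero
    · simp only [if_neg hb]
      simp only [not_exists, not_and] at hb
      have hsph : T3.M.IsSph0Param K' C.m := fun w d hd => hC.2 w d hd
      rw [hc hmemS _ _ C.m hsph]
      have hr₁ : ∀ w ∈ D.P', T3.H732.root1_732 (C.a w) (C.b w) ≠ 0 := fun w hw h =>
        hb w hw (by rw [← (T3.H732.roots_spec732 (C.a w) (C.b w)).2, h, zero_mul])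
      have hr₂ : ∀ w ∈ D.P', T3.H732.root2_732 (C.a w) (C.b w) ≠ 0 := fun w hw h =>
        hb w hw (by rw [← (T3.H732.roots_spec732 (C.a w) (C.b w)).2, h, mul_zero])
      refine mul_ne_zero hκ₀ (hD.ft_ne _ _ hr₁ hr₂ fun z hz => ?_)
      refine hD.good z fun w hw => ?_
      obtain ⟨hs, hp⟩ := T3.H732.roots_spec732 (C.a w) (C.b w)
      have hag := hC.1 w (hD.out w hw)
      have ha : C.a w = Φ.a w := hag.1
      have hb' : C.b w = Φ.b w := hag.2
      rw [← ha, ← hb']
      rcases hz w hw with h | h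
      · rw [h]
        linear_combination (T3.H732.root1_732 (C.a w) (C.b w)) * hs - hp
      · rw [h]
        linear_combination (T3.H732.root2_732 (C.a w) (C.b w)) * hs - hp

end TwoFields

end Fermat.Agent.LT.T7.H952
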